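/-
The six exponentials theorem: Schwarz's lemma (helper85).
-/
import Mathlib

/-!
# Entire functions with many simple zeros

`schwarz`: an entire function which vanishes on a finite set `Z` of the disc `‖z‖ ≤ r` and is bounded
by `M` on the circle `‖z‖ = 5 r` is bounded by `M 2^(-#Z)` on the disc `‖z‖ ≤ r`.
-/

namespace Fermat.Agent.Cor.SIX

open Finset

/-- An entire function is divisible by `∏ (z - b)` over a finite set of zeros. -/
theorem exists_factor (Z : Finset ℂ) : ∀ {f : ℂ → ℂ}, Differentiable ℂ f → (∀ z ∈ Z, f z = 0) →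
    ∃ G : ℂ → ℂ, Differentiable ℂ G ∧ ∀ z, f z = (∏ b ∈ Z, (z - b)) * G z := by
  classical
  induction Z using Finset.induction_on with
  | empty => intro f hf _; exact ⟨f, hf, fun z => by simp⟩
  | insert b Z hb ih =>
    intro f hf h0
    have hg : Differentiable ℂ (dslope f b) := by
      rw [← differentiableOn_univ, Complex.differentiableOn_dslope Filter.univ_mem]
      exact hf.differentiableOn
    have hfg : ∀ z, f z = (z - b) * dslope f b z := by
      intro z
      have := sub_smul_dslope f b z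
      rw [h0 b (mem_insert_self _ _), sub_zero] at this
      rw [← this, smul_eq_mul]
    obtain ⟨G, hG, hfG⟩ := ih hg (by
      intro z hz
      have h1 := hfg z
      rw [h0 z (mem_insert_of_mem hz)] at h1
      have h2 : z - b ≠ 0 := sub_ne_zero.2 (by rintro rfl; exact hb hz)
      exact (mul_eq_zero.1 h1.symm).resolve_left h2)
    refine ⟨G, hG, fun z => ?_⟩
    rw [hfg, hfG, prod_insert hb]; ring

/-- **Schwarz's lemma** for many zeros. -/
theorem schwarz {f : ℂ → ℂ} (hf : Differentiable ℂ f) (Z : Finset ℂ) (h0 : ∀ z ∈ Z, f z = 0)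
    {r M : ℝ} (hr : 0 < r) (hZ : ∀ z ∈ Z, ‖z‖ ≤ r)
    (hM : ∀ z : ℂ, ‖z‖ = 5 * r → ‖f z‖ ≤ M) {w : ℂ} (hw : ‖w‖ ≤ r) :
    ‖f w‖ ≤ M * (1 / 2) ^ Z.card := by
  obtain ⟨G, hG, hfG⟩ := exists_factor Z hf h0
  have h1 : ∀ z : ℂ, ‖z‖ = 5 * r → ‖G z‖ ≤ M / (4 * r) ^ Z.card := by
    intro z hz
    have h2 : (4 * r) ^ Z.card ≤ ‖∏ b ∈ Z, (z - b)‖ := by
      rw [norm_prod, ← prod_const]
      refine prod_le_prod (fun _ _ => by positivity) fun b hb => ?_
      have h4 := norm_sub_norm_le z b
      have h5 := hZ b hb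
      linarith
    have h6 := hM z hz
    rw [hfG, norm_mul] at h6
    rw [le_div_iff₀ (by positivity), mul_comm]
    exact (mul_le_mul_of_nonneg_right h2 (norm_nonneg _)).trans h6
  have h2 : ∀ z : ℂ, ‖z‖ ≤ 5 * r → ‖G z‖ ≤ M / (4 * r) ^ Z.card := by
    intro z hz
    refine Complex.norm_le_of_forall_mem_frontier_norm_le (U := Metric.ball 0 (5 * r))
      Metric.isBounded_ball hG.diffContOnCl (fun w hw => ?_) ?_
    · rw [frontier_ball _ (by positivity)] at hw
      exact h1 w (by simpa using hw)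
    · rw [closure_ball _ (by positivity)]
      simpa using hz
  have h3 : ‖∏ b ∈ Z, (w - b)‖ ≤ (2 * r) ^ Z.card := by
    rw [norm_prod, ← prod_const]
    refine prod_le_prod (fun _ _ => norm_nonneg _) fun b hb => ?_
    have h4 := norm_sub_le w b
    have h5 := hZ b hb
    linarith
  rw [hfG, norm_mul]
  calc ‖∏ b ∈ Z, (w - b)‖ * ‖G w‖ ≤ (2 * r) ^ Z.card * (M / (4 * r) ^ Z.card) :=
        mul_le_mul h3 (h2 w (by linarith)) (norm_nonneg _) (by positivity)
    _ = M * ((2 * r) / (4 * r)) ^ Z.card := by rw [div_pow]; ring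
    _ = M * (1 / 2) ^ Z.card := by
        congr 2
        field_simp
        norm_num

end Fermat.Agent.Cor.SIX
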