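/-
The six exponentials theorem: exponential sums (helper85).
-/
import Fermat.Agent.Corollaries.GS.Func
import Fermat.Agent.Corollaries.SIX.Schwarz

/-!
# Exponential sums with zeros on a box of a lattice
-/

namespace Fermat.Agent.Cor.SIX

open Finset

/-- `∑ l i v i` -/
noncomputable def lin {n : ℕ} (v : Fin n → ℂ) (l : Fin n → ℕ) : ℂ := ∑ i, (l i : ℂ) * v i

theorem lin_injective {n : ℕ} {v : Fin n → ℂ} (h : LinearIndependent ℚ v) :
    Function.Injective (lin v) := by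
  intro l l' hl
  have h1 : ∑ i, ((l i : ℚ) - l' i) • v i = 0 := by
    have h2 : ∑ i, ((l i : ℚ) - l' i) • v i = lin v l - lin v l' := by
      rw [lin, lin, ← sum_sub_distrib]
      refine sum_congr rfl fun i _ => ?_
      rw [Algebra.smul_def]
      simp only [eq_ratCast, Rat.cast_sub, Rat.cast_natCast]
      ring
    rw [h2, hl, sub_self]
  funext i
  have h3 := Fintype.linearIndependent_iff.1 h _ h1 i
  have h4 : (l i : ℚ) = l' i := sub_eq_zero.1 h3
  exact_mod_cast h4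

theorem norm_lin_le {n : ℕ} (v : Fin n → ℂ) (l : Fin n → ℕ) {T : ℕ} (h : ∀ i, l i ≤ T) :
    ‖lin v l‖ ≤ T * ∑ i, ‖v i‖ := by
  rw [lin, mul_sum]
  refine (norm_sum_le _ _).trans (sum_le_sum fun i _ => ?_)
  rw [norm_mul, Complex.norm_natCast]
  exact mul_le_mul_of_nonneg_right (by exact_mod_cast h i) (norm_nonneg _)

/-- the exponential sum -/
noncomputable def expSum (x : Fin 2 → ℂ) {L : ℕ} (g : (Fin 2 → Fin L) → ℂ) (z : ℂ) : ℂ :=
  ∑ l, g l * Complex.exp (lin x (fun i => (l i : ℕ)) * z)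

theorem differentiable_expSum (x : Fin 2 → ℂ) {L : ℕ} (g : (Fin 2 → Fin L) → ℂ) :
    Differentiable ℂ (expSum x g) := by
  unfold expSum
  fun_prop

/-- an exponential sum with zeros on a large box is small -/
theorem norm_expSum_le {x : Fin 2 → ℂ} {y : Fin 3 → ℂ} (hy : LinearIndependent ℚ y) {L T : ℕ}
    {g : (Fin 2 → Fin L) → ℂ} {B : ℝ} (hB : ∀ l, ‖g l‖ ≤ B)
    (hvan : ∀ s : Fin 3 → ℕ, (∀ j, s j < T) → expSum x g (lin y s) = 0) {w : ℂ}
    (hw : ‖w‖ ≤ (1 + ∑ j, ‖y j‖) * (T + 1)) :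
    ‖expSum x g w‖ ≤ (((L : ℝ) ^ 2 * (B * Real.exp (5 * (1 + ∑ j, ‖y j‖) * ∑ i, ‖x i‖) ^
      (L * (T + 1)))) * (1 / 2) ^ (T ^ 3)) := by
  classical
  set c : ℝ := 1 + ∑ j, ‖y j‖ with hc
  set Λ : ℝ := ∑ i, ‖x i‖ with hΛ
  have hΛ0 : 0 ≤ Λ := sum_nonneg fun _ _ => norm_nonneg _
  have hy0 : 0 ≤ ∑ j, ‖y j‖ := sum_nonneg fun _ _ => norm_nonneg _
  have hc0 : 0 < c := by linarith
  set Z : Finset ℂ := univ.image (fun s : Fin 3 → Fin T => lin y (fun j => (s j : ℕ))) with hZdef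
  have hcard : Z.card = T ^ 3 := by
    rw [hZdef, card_image_of_injective, card_univ, Fintype.card_fun, Fintype.card_fin,
      Fintype.card_fin]
    intro s s' h
    have h1 := lin_injective hy h
    funext j
    exact Fin.ext (congrFun h1 j)
  rw [← hcard]
  have hr : 0 < c * ((T : ℝ) + 1) := by positivity
  refine schwarz (differentiable_expSum x g) Z ?_ hr ?_ ?_ hw
  · intro z hz
    obtain ⟨s, _, rfl⟩ := mem_image.1 hz
    exact hvan _ fun j => (s j).2
  · intro z hz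
    obtain ⟨s, _, rfl⟩ := mem_image.1 hz
    refine (norm_lin_le y _ (T := T) fun j => (s j).2.le).trans ?_
    rw [mul_comm]
    have hT : (0 : ℝ) ≤ T := Nat.cast_nonneg T
    exact mul_le_mul (by linarith) (by linarith) hT hc0.le
  · intro z hz
    have h1 : ∀ l : Fin 2 → Fin L, ‖g l * Complex.exp (lin x (fun i => (l i : ℕ)) * z)‖ ≤
        B * Real.exp (5 * c * Λ) ^ (L * (T + 1)) := by
      intro l
      rw [norm_mul]
      refine mul_le_mul (hB l) ?_ (norm_nonneg _) ((norm_nonneg _).trans (hB l))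
      refine (Complex.norm_exp_le_exp_norm _).trans ?_
      rw [← Real.exp_nat_mul]
      apply Real.exp_le_exp.2
      rw [norm_mul, hz]
      have h2 := norm_lin_le x (fun i => (l i : ℕ)) (T := L) fun i => (l i).2.le
      push_cast
      calc ‖lin x fun i => (l i : ℕ)‖ * (5 * (c * ((T : ℝ) + 1))) ≤
          (L * Λ) * (5 * (c * ((T : ℝ) + 1))) := mul_le_mul_of_nonneg_right h2 (by positivity)
        _ = L * (T + 1) * (5 * c * Λ) := by ring
    unfold expSum
    refine (norm_sum_le _ _).trans ((sum_le_sum fun l _ => h1 l).trans ?_)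
    rw [sum_const, card_univ, Fintype.card_fun, Fintype.card_fin, Fintype.card_fin, nsmul_eq_mul]
    push_cast
    exact le_rfl

/-- an exponential sum which vanishes on the whole lattice is zero -/
theorem expSum_eq_zero {x : Fin 2 → ℂ} {y : Fin 3 → ℂ} (hx : LinearIndependent ℚ x)
    (hy : LinearIndependent ℚ y) {L : ℕ} {g : (Fin 2 → Fin L) → ℂ}
    (hvan : ∀ s : Fin 3 → ℕ, expSum x g (lin y s) = 0) (l : Fin 2 → Fin L) : g l = 0 := by
  classical
  have hB : ∀ l, ‖g l‖ ≤ ∑ l, ‖g l‖ := fun l =>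
    single_le_sum (f := fun l => ‖g l‖) (fun _ _ => norm_nonneg _) (mem_univ l)
  set B := ∑ l, ‖g l‖
  have hB0 : 0 ≤ B := sum_nonneg fun _ _ => norm_nonneg _
  set c : ℝ := 1 + ∑ j, ‖y j‖ with hc
  have hy0 : 0 ≤ ∑ j, ‖y j‖ := sum_nonneg fun _ _ => norm_nonneg _
  set E : ℝ := Real.exp (5 * c * ∑ i, ‖x i‖) with hE
  have hE0 : 0 < E := Real.exp_pos _
  obtain ⟨k, hk⟩ := pow_unbounded_of_one_lt E (one_lt_two (α := ℝ))
  have hzero : ∀ w, expSum x g w = 0 := by
    intro w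
    have h1 : ∀ᶠ T : ℕ in Filter.atTop, ‖expSum x g w‖ ≤ (L : ℝ) ^ 2 * B * (1 / 2) ^ T := by
      obtain ⟨N, hN⟩ := exists_nat_ge ‖w‖
      filter_upwards [Filter.eventually_ge_atTop (N + 2 * k * L + 1)] with T hT
      have hw : ‖w‖ ≤ c * (T + 1) := by
        have h2 : (N : ℝ) ≤ T := by exact_mod_cast (by omega : N ≤ T)
        have h3 : (1 : ℝ) ≤ c := by linarith
        nlinarith
      refine (norm_expSum_le hy hB (fun s _ => hvan s) hw).trans ?_
      have h2 : E ^ (L * (T + 1)) ≤ 2 ^ (k * (L * (T + 1))) := by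
        rw [pow_mul (2 : ℝ) k]
        exact pow_le_pow_left₀ hE0.le hk.le _
      have h3 : k * (L * (T + 1)) + T ≤ T ^ 3 := by
        have h4 : 2 * k * L + 1 ≤ T := by omega
        have h5 : T + 1 ≤ 2 * T := by omega
        calc k * (L * (T + 1)) + T ≤ k * (L * (2 * T)) + T := by gcongr
          _ = (2 * k * L + 1) * T := by ring
          _ ≤ T * T := Nat.mul_le_mul_right _ h4
          _ ≤ T * T * T := Nat.le_mul_of_pos_right _ (by omega)
          _ = T ^ 3 := by ring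
      have h6 : (2 : ℝ) ^ (k * (L * (T + 1))) * (1 / 2) ^ (T ^ 3) ≤ (1 / 2) ^ T := by
        have h7 : (1 / 2 : ℝ) ^ (T ^ 3) ≤ (1 / 2) ^ (k * (L * (T + 1)) + T) :=
          pow_le_pow_of_le_one (by norm_num) (by norm_num) h3
        calc (2 : ℝ) ^ (k * (L * (T + 1))) * (1 / 2) ^ (T ^ 3) ≤
            (2 : ℝ) ^ (k * (L * (T + 1))) * (1 / 2) ^ (k * (L * (T + 1)) + T) := by gcongr
          _ = (2 * (1 / 2) : ℝ) ^ (k * (L * (T + 1))) * (1 / 2) ^ T := by
              rw [pow_add, mul_pow]; ring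
          _ = (1 / 2) ^ T := by norm_num
      calc (L : ℝ) ^ 2 * (B * E ^ (L * (T + 1))) * (1 / 2) ^ T ^ 3 ≤
          (L : ℝ) ^ 2 * (B * 2 ^ (k * (L * (T + 1)))) * (1 / 2) ^ T ^ 3 := by gcongr
        _ = (L : ℝ) ^ 2 * B * (2 ^ (k * (L * (T + 1))) * (1 / 2) ^ T ^ 3) := by ring
        _ ≤ (L : ℝ) ^ 2 * B * (1 / 2) ^ T := by gcongr
    have h2 : Filter.Tendsto (fun T : ℕ => (L : ℝ) ^ 2 * B * (1 / 2) ^ T) Filter.atTop
        (nhds 0) := by
      have := (tendsto_pow_atTop_nhds_zero_of_lt_one (r := (1 / 2 : ℝ)) (by norm_num)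
        (by norm_num)).const_mul ((L : ℝ) ^ 2 * B)
      simpa using this
    have h3 := ge_of_tendsto h2 h1
    exact norm_le_zero_iff.1 h3
  have hder : ∀ k : ℕ, ∑ l, g l * (lin x (fun i => (l i : ℕ))) ^ k = 0 := by
    intro k
    have h1 := GS.iteratedDeriv_expSum (univ : Finset (Fin 2 → Fin L)) g
      (fun l => lin x (fun i => (l i : ℕ))) k 0
    have h2 : (fun z => ∑ i, g i * Complex.exp (lin x (fun j => (i j : ℕ)) * z)) =
        fun _ => (0 : ℂ) := funext fun z => hzero z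
    rw [h2] at h1
    simp only [mul_zero, Complex.exp_zero, mul_one] at h1
    rw [← h1]
    simp
  have hinj : Function.Injective (fun l : Fin 2 → Fin L => lin x (fun i => (l i : ℕ))) := by
    intro l l' h
    have h1 := lin_injective hx h
    funext j
    exact Fin.ext (congrFun h1 j)
  exact GS.eq_zero_of_sum_pow hinj hder l

end Fermat.Agent.Cor.SIX
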