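/-
The six exponentials theorem (helper85).
-/
import Fermat.Agent.Corollaries.SIX.Func

/-!
# The six exponentials theorem (Siegel, Lang, Ramachandra)

`six_exponentials`: if `x 0, x 1` and `y 0, y 1, y 2` are linearly independent over `ℚ`, then one of
the six numbers `exp (x i * y j)` is transcendental.
-/

namespace Fermat.Agent.Cor.SIX

open Finset NumberField

variable {K : Type} [Field K] [NumberField K]

/-- common denominator -/
theorem exists_den (a : Fin 2 → Fin 3 → K) : ∃ (d : ℤ) (b : Fin 2 → Fin 3 → 𝓞 K), d ≠ 0 ∧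
    ∀ i j, algebraMap (𝓞 K) K (b i j) = d * a i j := by
  classical
  obtain ⟨d, hd, h⟩ := exists_integral_multiples ℤ ℚ
    (Finset.univ.image fun p : Fin 2 × Fin 3 => a p.1 p.2)
  have h1 : ∀ i j, IsIntegral ℤ (d • a i j) := fun i j =>
    h _ (mem_image.2 ⟨(i, j), mem_univ _, rfl⟩)
  refine ⟨d, fun i j => ⟨_, h1 i j⟩, hd, fun i j => ?_⟩
  rw [← zsmul_eq_mul]
  rfl

/-- the entries of the linear system -/
noncomputable def ent (d : ℤ) (b : Fin 2 → Fin 3 → 𝓞 K) (P : ℕ) (l : Fin 2 → ℕ) (s : Fin 3 → ℕ) :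
    𝓞 K :=
  ∏ i, ∏ j, ((d : 𝓞 K) ^ (P - l i * s j) * b i j ^ (l i * s j))

omit [NumberField K] in
theorem coe_ent {d : ℤ} {a : Fin 2 → Fin 3 → K} {b : Fin 2 → Fin 3 → 𝓞 K}
    (hb : ∀ i j, algebraMap (𝓞 K) K (b i j) = d * a i j) {P : ℕ} {l : Fin 2 → ℕ} {s : Fin 3 → ℕ}
    (h : ∀ i j, l i * s j ≤ P) : algebraMap (𝓞 K) K (ent d b P l s) =
      (d : K) ^ (6 * P) * ∏ i, ∏ j, a i j ^ (l i * s j) := by
  have key : ∀ i j, (d : K) ^ (P - l i * s j) * (d * a i j) ^ (l i * s j) =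
      (d : K) ^ P * a i j ^ (l i * s j) := by
    intro i j
    rw [mul_pow, ← mul_assoc, ← pow_add, Nat.sub_add_cancel (h i j)]
  unfold ent
  simp only [map_prod, map_mul, map_pow, map_intCast, hb]
  simp only [key]
  simp only [prod_mul_distrib, prod_const, card_univ, Fintype.card_fin]
  congr 1
  rw [← pow_mul, ← pow_mul]
  congr 1
  ring

theorem house_prod_le' {ι : Type*} (s : Finset ι) (f : ι → K) {X : ℝ}
    (h : ∀ i ∈ s, house (f i) ≤ X) : house (∏ i ∈ s, f i) ≤ X ^ s.card := by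
  classical
  induction s using Finset.induction_on with
  | empty =>
    rw [prod_empty, card_empty, pow_zero]
    have := house_intCast (K := K) 1
    simpa using this.le
  | insert b s hb ih =>
    rw [prod_insert hb, card_insert_of_notMem hb, pow_succ']
    exact GS.house_mul_le_mul (h b (mem_insert_self _ _))
      (ih fun i hi => h i (mem_insert_of_mem hi))

theorem house_ent_le {d : ℤ} {b : Fin 2 → Fin 3 → 𝓞 K} {H : ℝ} (hd : |(d : ℝ)| ≤ H)
    (hb : ∀ i j, house (algebraMap (𝓞 K) K (b i j)) ≤ H) {P : ℕ} {l : Fin 2 → ℕ} {s : Fin 3 → ℕ}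
    (h : ∀ i j, l i * s j ≤ P) : house (algebraMap (𝓞 K) K (ent d b P l s)) ≤ H ^ (6 * P) := by
  have hd' : house ((d : K)) ≤ H := by
    rw [house_intCast]
    push_cast
    exact hd
  have e1 : ∀ i j, house (((d : K) ^ (P - l i * s j) *
      algebraMap (𝓞 K) K (b i j) ^ (l i * s j))) ≤ H ^ P := by
    intro i j
    have := GS.house_mul_le_mul (GS.house_pow_le_pow hd' (P - l i * s j))
      (GS.house_pow_le_pow (hb i j) (l i * s j))
    rwa [← pow_add, Nat.sub_add_cancel (h i j)] at this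
  unfold ent
  simp only [map_prod, map_mul, map_pow, map_intCast]
  have e2 := house_prod_le' (univ : Finset (Fin 2)) (fun i => ∏ j : Fin 3,
    ((d : K) ^ (P - l i * s j) * algebraMap (𝓞 K) K (b i j) ^ (l i * s j)))
    (X := (H ^ P) ^ 3) (fun i _ => by
      have := house_prod_le' (univ : Finset (Fin 3)) (fun j =>
        ((d : K) ^ (P - l i * s j) * algebraMap (𝓞 K) K (b i j) ^ (l i * s j)))
        (X := H ^ P) (fun j _ => e1 i j)
      simpa using this)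
  refine e2.trans (le_of_eq ?_)
  rw [card_univ, Fintype.card_fin, ← pow_mul, ← pow_mul]
  congr 1
  ring

theorem prod_exp (x : Fin 2 → ℂ) (y : Fin 3 → ℂ) (l : Fin 2 → ℕ) (s : Fin 3 → ℕ) :
    ∏ i, ∏ j, Complex.exp (x i * y j) ^ (l i * s j) = Complex.exp (lin x l * lin y s) := by
  rw [lin, lin, sum_mul_sum, Complex.exp_sum]
  refine prod_congr rfl fun i _ => ?_
  rw [Complex.exp_sum]
  refine prod_congr rfl fun j _ => ?_
  rw [← Complex.exp_nat_mul]
  congr 1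
  push_cast
  ring

/-- The six numbers `exp (x i * y j)` cannot lie in a number field. -/
theorem no_field (σ : K →+* ℂ) (a : Fin 2 → Fin 3 → K) {x : Fin 2 → ℂ} {y : Fin 3 → ℂ}
    (hx : LinearIndependent ℚ x) (hy : LinearIndependent ℚ y)
    (ha : ∀ i j, σ (a i j) = Complex.exp (x i * y j)) : False := by
  classical
  obtain ⟨C, hC1, hC⟩ := GS.exists_siegel K
  obtain ⟨d, b, hd, hb⟩ := exists_den a
  obtain ⟨H, hH1, hHd, hHb⟩ : ∃ H : ℝ, 1 ≤ H ∧ |(d : ℝ)| ≤ H ∧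
      ∀ i j, house (algebraMap (𝓞 K) K (b i j)) ≤ H := by
    have h0 : 0 ≤ ∑ i, ∑ j, house (algebraMap (𝓞 K) K (b i j)) :=
      sum_nonneg fun _ _ => sum_nonneg fun _ _ => GS.house_nonneg' _
    have h1 := abs_nonneg (d : ℝ)
    refine ⟨1 + |(d : ℝ)| + ∑ i, ∑ j, house (algebraMap (𝓞 K) K (b i j)), by linarith,
      by linarith, fun i j => ?_⟩
    have h2 : house (algebraMap (𝓞 K) K (b i j)) ≤ ∑ j, house (algebraMap (𝓞 K) K (b i j)) :=
      single_le_sum (f := fun j => house (algebraMap (𝓞 K) K (b i j)))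
        (fun _ _ => GS.house_nonneg' _) (mem_univ j)
    have h3 : ∑ j, house (algebraMap (𝓞 K) K (b i j)) ≤
        ∑ i, ∑ j, house (algebraMap (𝓞 K) K (b i j)) :=
      single_le_sum (f := fun i => ∑ j, house (algebraMap (𝓞 K) K (b i j)))
        (fun _ _ => sum_nonneg fun _ _ => GS.house_nonneg' _) (mem_univ i)
    linarith
  have hH0 : 0 < H := by linarith
  set c : ℝ := 1 + ∑ j, ‖y j‖ with hc
  have hy0 : 0 ≤ ∑ j, ‖y j‖ := sum_nonneg fun _ _ => norm_nonneg _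
  set E₁ : ℝ := Real.exp (5 * c * ∑ i, ‖x i‖) with hE₁
  have hE₁0 : 0 < E₁ := Real.exp_pos _
  set n : ℕ := Module.finrank ℚ K with hn
  have hn1 : 1 ≤ n := Module.finrank_pos
  obtain ⟨k, hk⟩ := pow_unbounded_of_one_lt ((16 * C ^ 2 * H ^ 12) ^ n * E₁)
    (one_lt_two (α := ℝ))
  -- parameters
  set m : ℕ := 2 * k + 1 with hm
  set S : ℕ := 2 * m ^ 2 with hS
  set L : ℕ := 4 * m ^ 3 with hL
  have hm1 : 1 ≤ m := by omega
  have hL1 : 1 ≤ L := by
    have : 1 ≤ m ^ 3 := Nat.one_le_pow _ _ hm1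
    omega
  have hS1 : 1 ≤ S := by
    have : 1 ≤ m ^ 2 := Nat.one_le_pow _ _ hm1
    omega
  have hcardι : Fintype.card (Fin 3 → Fin S) = S ^ 3 := by simp
  have hcardκ : Fintype.card (Fin 2 → Fin L) = 2 * S ^ 3 := by
    rw [Fintype.card_fun, Fintype.card_fin, Fintype.card_fin, hS, hL]; ring
  have hle : ∀ (T : ℕ) (l : Fin 2 → Fin L) (s : Fin 3 → ℕ), (∀ j, s j < T) →
      ∀ i j, (l i : ℕ) * s j ≤ L * T := fun T l s hs i j =>
    Nat.mul_le_mul (l i).2.le (hs j).le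
  obtain ⟨ξ, hξ0, hξ, hξB⟩ := hC (Fin 3 → Fin S) (Fin 2 → Fin L) (S ^ 3) (by positivity) hcardι
    hcardκ (fun s l => ent d b (L * S) (fun i => (l i : ℕ)) (fun j => (s j : ℕ))) (H ^ (6 * (L * S)))
    (one_le_pow₀ hH1) (fun s l => house_ent_le hHd hHb (hle S l _ fun j => (s j).2))
  set B : ℝ := C ^ 2 * (2 * ((S ^ 3 : ℕ) : ℝ)) * H ^ (6 * (L * S)) with hB
  set g : (Fin 2 → Fin L) → ℂ := fun l => σ (ξ l : K) with hg
  have hgB : ∀ l, ‖g l‖ ≤ B := fun l => (norm_embedding_le_house _ σ).trans (hξB l)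
  have hd0 : (d : ℂ) ≠ 0 := by exact_mod_cast hd
  -- the values of the exponential sum
  have hval : ∀ (T : ℕ) (s : Fin 3 → ℕ), (∀ j, s j < T) →
      σ (algebraMap (𝓞 K) K (∑ l : Fin 2 → Fin L,
        ent d b (L * T) (fun i => (l i : ℕ)) s * ξ l)) =
      (d : ℂ) ^ (6 * (L * T)) * expSum x g (lin y s) := by
    intro T s hs
    rw [map_sum, map_sum, expSum, mul_sum]
    refine sum_congr rfl fun l _ => ?_
    rw [map_mul, map_mul, coe_ent hb (hle T l s hs), map_mul, map_pow, map_intCast, map_prod]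
    have h1 : ∏ i, σ (∏ j, a i j ^ ((l i : ℕ) * s j)) =
        Complex.exp (lin x (fun i => (l i : ℕ)) * lin y s) := by
      rw [← prod_exp]
      refine prod_congr rfl fun i _ => ?_
      rw [map_prod]
      refine prod_congr rfl fun j _ => ?_
      rw [map_pow, ha]
    rw [h1, hg]
    ring
  have hvan : ∀ s : Fin 3 → ℕ, (∀ j, s j < S) → expSum x g (lin y s) = 0 := by
    intro s hs
    have h1 := hξ (fun j => ⟨s j, hs j⟩)
    have h2 := hval S s hs
    rw [h1, map_zero, map_zero] at h2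
    exact (mul_eq_zero.1 h2.symm).resolve_left (pow_ne_zero _ hd0)
  -- the first box on which the sum does not vanish
  have hex : ∃ T : ℕ, ∃ s : Fin 3 → ℕ, (∀ j, s j < T) ∧ expSum x g (lin y s) ≠ 0 := by
    by_contra hcon
    push Not at hcon
    apply hξ0
    funext l
    have h1 := expSum_eq_zero hx hy (g := g) (fun s => hcon (∑ j, s j + 1) s fun j =>
      Nat.lt_succ_of_le (single_le_sum (f := s) (fun _ _ => Nat.zero_le _) (mem_univ j))) l
    have h2 : (ξ l : K) = 0 := (map_eq_zero_iff σ σ.injective).1 h1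
    exact_mod_cast h2
  obtain ⟨s, hs, hne⟩ := Nat.find_spec hex
  have hmin : ∀ T, T < Nat.find hex → ∀ s : Fin 3 → ℕ, (∀ j, s j < T) →
      expSum x g (lin y s) = 0 := by
    intro T hT s hs
    by_contra h
    exact Nat.find_min hex hT ⟨s, hs, h⟩
  obtain ⟨T, hT⟩ : ∃ T, Nat.find hex = T + 1 := by
    refine Nat.exists_eq_succ_of_ne_zero fun h0 => ?_
    rw [h0] at hs
    exact absurd (hs 0) (Nat.not_lt_zero _)
  have hST : S ≤ T := by
    by_contra hlt
    apply hne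
    apply hvan s fun j => (hs j).trans_le ?_
    rw [hT]; omega
  rw [hT] at hs hmin
  -- the algebraic integer
  set P : ℕ := L * (T + 1) with hP
  set η : 𝓞 K := ∑ l : Fin 2 → Fin L, ent d b P (fun i => (l i : ℕ)) s * ξ l with hη
  have hση : σ (algebraMap (𝓞 K) K η) = (d : ℂ) ^ (6 * P) * expSum x g (lin y s) :=
    hval (T + 1) s hs
  have hη0 : η ≠ 0 := by
    intro h0
    rw [h0, map_zero, map_zero] at hση
    exact mul_ne_zero (pow_ne_zero _ hd0) hne hση.symm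
  have hB0 : 0 ≤ B := (norm_nonneg _).trans (hgB fun _ => ⟨0, hL1⟩)
  have hBle : B ≤ C ^ 2 * (L : ℝ) ^ 2 * H ^ (6 * P) := by
    have h1 : (2 * ((S ^ 3 : ℕ) : ℝ)) = (L : ℝ) ^ 2 := by
      rw [hS, hL]; push_cast; ring
    rw [hB, h1]
    have h2 : H ^ (6 * (L * S)) ≤ H ^ (6 * P) := by
      apply pow_le_pow_right₀ hH1
      have : L * S ≤ P := Nat.mul_le_mul_left _ (by omega)
      omega
    gcongr
  have hw : ‖lin y s‖ ≤ c * (T + 1) := by
    refine (norm_lin_le y s (T := T) fun j => Nat.lt_succ_iff.1 (hs j)).trans ?_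
    have : (0 : ℝ) ≤ T := Nat.cast_nonneg T
    rw [mul_comm]
    exact mul_le_mul (by linarith) (by linarith) this (by linarith)
  have hF := norm_expSum_le hy hgB (hmin T (Nat.lt_succ_self T)) hw
  have hhouse : house (algebraMap (𝓞 K) K η) ≤ (L : ℝ) ^ 2 * (H ^ (6 * P) * B) := by
    rw [hη, map_sum]
    refine (GS.house_sum_le _ _ (X := H ^ (6 * P) * B) fun l _ => ?_).trans ?_
    · rw [map_mul]
      exact GS.house_mul_le_mul (house_ent_le hHd hHb (hle (T + 1) l s hs)) (hξB l)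
    · rw [card_univ, Fintype.card_fun, Fintype.card_fin, Fintype.card_fin]
      push_cast
      exact le_rfl
  have hnorm := GS.one_le_norm_mul hη0 σ
  set Q : ℝ := (L : ℝ) ^ 2 * (H ^ (6 * P) * B) with hQ
  have hσle : ‖σ (algebraMap (𝓞 K) K η)‖ ≤ Q * (E₁ ^ P * (1 / 2) ^ (T ^ 3)) := by
    rw [hση, norm_mul, norm_pow, Complex.norm_intCast]
    calc |(d : ℝ)| ^ (6 * P) * ‖expSum x g (lin y s)‖ ≤ H ^ (6 * P) *
        (((L : ℝ) ^ 2 * (B * E₁ ^ P)) * (1 / 2) ^ (T ^ 3)) := by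
          refine mul_le_mul (pow_le_pow_left₀ (abs_nonneg _) hHd _) hF (norm_nonneg _)
            (by positivity)
      _ = Q * (E₁ ^ P * (1 / 2) ^ (T ^ 3)) := by rw [hQ]; ring
  have hQ0 : 0 ≤ Q := by positivity
  have h1 : 1 ≤ Q ^ n * (E₁ ^ P * (1 / 2) ^ (T ^ 3)) := by
    calc (1 : ℝ) ≤ ‖σ (algebraMap (𝓞 K) K η)‖ * house (algebraMap (𝓞 K) K η) ^ (n - 1) := hnorm
      _ ≤ (Q * (E₁ ^ P * (1 / 2) ^ (T ^ 3))) * Q ^ (n - 1) :=
          mul_le_mul hσle (pow_le_pow_left₀ (GS.house_nonneg' _) hhouse _)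
            (pow_nonneg (GS.house_nonneg' _) _) (by positivity)
      _ = Q ^ (n - 1 + 1) * (E₁ ^ P * (1 / 2) ^ (T ^ 3)) := by rw [pow_succ]; ring
      _ = Q ^ n * (E₁ ^ P * (1 / 2) ^ (T ^ 3)) := by rw [Nat.sub_add_cancel hn1]
  have hP1 : 1 ≤ P := Nat.mul_pos hL1 (Nat.succ_pos T)
  have hLP : (L : ℝ) ≤ 2 ^ P := by
    have h2 : L ≤ 2 ^ L := Nat.lt_two_pow_self.le
    have h3 : 2 ^ L ≤ 2 ^ P := Nat.pow_le_pow_right (by norm_num) (Nat.le_mul_of_pos_right _ (by omega))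
    exact_mod_cast h2.trans h3
  have hQle : Q ≤ (16 * C ^ 2 * H ^ 12) ^ P := by
    have hC2 : C ^ 2 ≤ (C ^ 2) ^ P := le_self_pow₀ (one_le_pow₀ hC1) (by omega)
    calc Q ≤ (L : ℝ) ^ 2 * (H ^ (6 * P) * (C ^ 2 * (L : ℝ) ^ 2 * H ^ (6 * P))) := by
          rw [hQ]; gcongr
      _ = (L : ℝ) ^ 4 * C ^ 2 * H ^ (12 * P) := by
          rw [show 12 * P = 6 * P + 6 * P by ring, pow_add]; ring
      _ ≤ (2 ^ P) ^ 4 * (C ^ 2) ^ P * H ^ (12 * P) := by gcongr
      _ = (16 * C ^ 2 * H ^ 12) ^ P := by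
          rw [mul_pow, mul_pow, ← pow_mul H, ← pow_mul (2 : ℝ) P 4, mul_comm P 4,
            pow_mul (2 : ℝ) 4 P]
          norm_num
  have h2 : (2 : ℝ) ^ (T ^ 3) ≤ 2 ^ (k * P) := by
    have h3 : Q ^ n * E₁ ^ P ≤ 2 ^ (k * P) := by
      calc Q ^ n * E₁ ^ P ≤ ((16 * C ^ 2 * H ^ 12) ^ P) ^ n * E₁ ^ P := by gcongr
        _ = ((16 * C ^ 2 * H ^ 12) ^ n * E₁) ^ P := by
            rw [mul_pow _ E₁, ← pow_mul, ← pow_mul, mul_comm P n]
        _ ≤ (2 ^ k) ^ P := pow_le_pow_left₀ (by positivity) hk.le _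
        _ = 2 ^ (k * P) := (pow_mul _ _ _).symm
    have h4 : 1 ≤ 2 ^ (k * P) * (1 / 2 : ℝ) ^ (T ^ 3) := by
      calc (1 : ℝ) ≤ Q ^ n * (E₁ ^ P * (1 / 2) ^ (T ^ 3)) := h1
        _ = (Q ^ n * E₁ ^ P) * (1 / 2) ^ (T ^ 3) := by ring
        _ ≤ 2 ^ (k * P) * (1 / 2 : ℝ) ^ (T ^ 3) := by gcongr
    have h5 : (2 : ℝ) ^ (T ^ 3) * (1 / 2) ^ (T ^ 3) = 1 := by
      rw [← mul_pow]; norm_num
    have h6 : (0 : ℝ) < (1 / 2) ^ (T ^ 3) := by positivity
    exact le_of_mul_le_mul_right (h5.le.trans h4) h6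
  have h3 : T ^ 3 ≤ k * P := (pow_le_pow_iff_right₀ (one_lt_two (α := ℝ))).1 h2
  -- contradiction
  have hT1 : 1 ≤ T := hS1.trans hST
  have h4 : T ^ 2 ≤ 8 * k * m ^ 3 := by
    have h5 : T ^ 2 * T ≤ (8 * k * m ^ 3) * T := by
      calc T ^ 2 * T = T ^ 3 := by ring
        _ ≤ k * (4 * m ^ 3 * (T + 1)) := by rw [← hL]; exact h3
        _ ≤ k * (4 * m ^ 3 * (2 * T)) := by gcongr; omega
        _ = (8 * k * m ^ 3) * T := by ring
    exact Nat.le_of_mul_le_mul_right h5 hT1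
  have h5 : S ^ 2 ≤ T ^ 2 := Nat.pow_le_pow_left hST 2
  have h6 : 4 * m ^ 3 * m ≤ 4 * m ^ 3 * (2 * k) := by
    calc 4 * m ^ 3 * m = S ^ 2 := by rw [hS]; ring
      _ ≤ T ^ 2 := h5
      _ ≤ 8 * k * m ^ 3 := h4
      _ = 4 * m ^ 3 * (2 * k) := by ring
  have h7 : m ≤ 2 * k := Nat.le_of_mul_le_mul_left h6 (by positivity)
  omega

/-- **The six exponentials theorem** (Siegel, Lang, Ramachandra): if `x 0, x 1` and `y 0, y 1, y 2`
are linearly independent over `ℚ`, then one of the six numbers `exp (x i * y j)` is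
transcendental. -/
theorem six_exponentials {x : Fin 2 → ℂ} {y : Fin 3 → ℂ} (hx : LinearIndependent ℚ x)
    (hy : LinearIndependent ℚ y) : ∃ i j, Transcendental ℚ (Complex.exp (x i * y j)) := by
  classical
  by_contra hcon
  push Not at hcon
  have halg : ∀ i j, IsAlgebraic ℚ (Complex.exp (x i * y j)) := fun i j => by
    have := hcon i j
    rwa [Transcendental, not_not] at this
  set A : Set ℂ := Set.range fun p : Fin 2 × Fin 3 => Complex.exp (x p.1 * y p.2) with hA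
  have hfd : FiniteDimensional ℚ (IntermediateField.adjoin ℚ A) := by
    have : Finite A := Set.finite_range _
    apply IntermediateField.finiteDimensional_adjoin
    rintro z ⟨p, rfl⟩
    exact (halg p.1 p.2).isIntegral
  have hnf : NumberField (IntermediateField.adjoin ℚ A) := ⟨⟩
  exact no_field (K := IntermediateField.adjoin ℚ A)
    (algebraMap (IntermediateField.adjoin ℚ A) ℂ)
    (fun i j => ⟨Complex.exp (x i * y j), IntermediateField.subset_adjoin ℚ A ⟨(i, j), rfl⟩⟩)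
    hx hy (fun i j => rfl)

end Fermat.Agent.Cor.SIX
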