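/-
The six exponentials theorem: corollaries (helper85).
-/
import Fermat.Agent.Corollaries.SIX.Main
import Fermat.Agent.Corollaries.LW.Main

/-!
# Corollaries of the six exponentials theorem

* `exists_rat`: `l 0, l 1, l 2` linearly independent logarithms of algebraic numbers; if the three
  numbers `exp (t * l j)` are algebraic, then `t` is rational;
* `rat_of_primes`: if `p ^ t` is algebraic for three primes `p` (`t` real), then `t` is rational;
* `nat_of_primes` (Alaoglu - Erdős): if `p ^ t` is a natural number for three primes `p`, then `t` is a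
  natural number;
* `transcendental_pow_or`: if `t` is transcendental, then one of `a ^ t`, `a ^ (t ^ 2)`, `a ^ (t ^ 3)` is
  transcendental, for every algebraic `a > 0`, `a ≠ 1`; for example `2 ^ π`, `2 ^ π²`, `2 ^ π³`.
-/

namespace Fermat.Agent.Cor.SIX

open Finset Polynomial

/-- The logarithms of distinct primes are linearly independent over `ℚ`. -/
theorem linearIndependent_log_primes {ι : Type*} {p : ι → ℕ} (hp : ∀ i, (p i).Prime)
    (hinj : Function.Injective p) : LinearIndependent ℚ (fun i => Real.log (p i)) := by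
  classical
  rw [← LinearIndependent.iff_fractionRing (R := ℤ) (K := ℚ), linearIndependent_iff']
  intro s g hg i hi
  have hne : ∀ j, (p j : ℚ) ^ g j ≠ 0 := fun j =>
    zpow_ne_zero _ (by exact_mod_cast (hp j).ne_zero)
  have hpos : ∀ j, (0 : ℝ) < (p j : ℝ) ^ g j := fun j =>
    zpow_pos (by exact_mod_cast (hp j).pos) _
  have h1 : (∏ j ∈ s, (p j : ℚ) ^ g j) = 1 := by
    have h2 : Real.log (∏ j ∈ s, (p j : ℝ) ^ g j) = 0 := by
      rw [Real.log_prod (fun j _ => (hpos j).ne'), ← hg]
      refine sum_congr rfl fun j _ => ?_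
      rw [Real.log_zpow, zsmul_eq_mul]
    have h3 : (∏ j ∈ s, (p j : ℝ) ^ g j) = 1 :=
      Real.eq_one_of_pos_of_log_eq_zero (prod_pos fun j _ => hpos j) h2
    have h4 : ((∏ j ∈ s, (p j : ℚ) ^ g j : ℚ) : ℝ) = ((1 : ℚ) : ℝ) := by
      rw [Rat.cast_one, ← h3, Rat.cast_prod]
      exact prod_congr rfl fun j _ => by rw [Rat.cast_zpow, Rat.cast_natCast]
    exact Rat.cast_injective h4
  have : Fact (p i).Prime := ⟨hp i⟩
  have key : ∀ s : Finset ι, padicValRat (p i) (∏ j ∈ s, (p j : ℚ) ^ g j) =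
      ∑ j ∈ s, g j * padicValRat (p i) (p j : ℚ) := by
    intro s
    induction s using Finset.induction_on with
    | empty => simp
    | insert b s hb ih =>
      rw [prod_insert hb, sum_insert hb,
        padicValRat.mul (hne b) (prod_ne_zero_iff.2 fun j _ => hne j), ih, padicValRat.zpow]
  have h4 := key s
  rw [h1, padicValRat.one, sum_eq_single i] at h4
  · rw [padicValRat.self (hp i).one_lt, mul_one] at h4
    exact h4.symm
  · intro j _ hj
    have : Fact (p j).Prime := ⟨hp j⟩
    have h5 : padicValNat (p i) (p j) = 0 :=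
      padicValNat_primes (fun h => hj (hinj h.symm))
    rw [padicValRat.of_nat, h5]
    simp
  · intro h; exact absurd hi h

lemma linearIndependent_one_of_irrational {t : ℂ} (ht : ∀ r : ℚ, (r : ℂ) ≠ t) :
    LinearIndependent ℚ ![1, t] := by
  rw [LinearIndependent.pair_iff]
  intro a b hab
  rw [Algebra.smul_def, Algebra.smul_def, eq_ratCast, eq_ratCast, mul_one] at hab
  have hb : b = 0 := by
    by_contra hb
    apply ht (-a / b)
    have hb' : (b : ℂ) ≠ 0 := by exact_mod_cast hb
    push_cast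
    rw [div_eq_iff hb']
    linear_combination -hab
  refine ⟨?_, hb⟩
  rw [hb, Rat.cast_zero, zero_mul, add_zero] at hab
  exact_mod_cast hab

/-- If `l 0, l 1, l 2` are logarithms of algebraic numbers, linearly independent over `ℚ`, and the
three numbers `exp (t * l j)` are algebraic, then `t` is rational. -/
theorem exists_rat {t : ℂ} {l : Fin 3 → ℂ} (hl : LinearIndependent ℚ l)
    (h1 : ∀ j, IsAlgebraic ℚ (Complex.exp (l j)))
    (ht : ∀ j, IsAlgebraic ℚ (Complex.exp (t * l j))) : ∃ r : ℚ, (r : ℂ) = t := by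
  by_contra hcon
  push Not at hcon
  obtain ⟨i, j, hij⟩ := six_exponentials (linearIndependent_one_of_irrational hcon) hl
  fin_cases i
  · exact hij (by simpa using h1 j)
  · exact hij (by simpa using ht j)

/-- If `p ^ t` is algebraic for three distinct primes `p`, then `t` is rational (Siegel, Lang). -/
theorem rat_of_primes {t : ℝ} {p : Fin 3 → ℕ} (hp : ∀ j, (p j).Prime) (hinj : Function.Injective p)
    (h : ∀ j, IsAlgebraic ℚ ((p j : ℝ) ^ t)) : ∃ r : ℚ, (r : ℝ) = t := by
  have hl : LinearIndependent ℚ (fun j => ((Real.log (p j) : ℝ) : ℂ)) :=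
    (linearIndependent_log_primes hp hinj).map' ((algebraMap ℝ ℂ).toAddMonoidHom.toRatLinearMap)
      (LinearMap.ker_eq_bot.2 (algebraMap ℝ ℂ).injective)
  have hpos : ∀ j, (0 : ℝ) < p j := fun j => by exact_mod_cast (hp j).pos
  obtain ⟨r, hr⟩ := exists_rat (t := (t : ℂ)) hl
    (fun j => by
      rw [← Complex.ofReal_exp, Real.exp_log (hpos j)]
      exact_mod_cast isAlgebraic_natCast (R := ℚ) (A := ℂ) (p j))
    (fun j => by
      rw [← Complex.ofReal_mul, ← Complex.ofReal_exp, mul_comm, ← Real.rpow_def_of_pos (hpos j)]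
      exact LW.isAlgebraic_ofReal_iff.2 (h j))
  exact ⟨r, by exact_mod_cast hr⟩

/-- **Alaoglu and Erdős, Siegel**: if `p ^ t` is a natural number for three distinct primes `p`, then
`t` is a natural number. -/
theorem nat_of_primes {t : ℝ} {p : Fin 3 → ℕ} (hp : ∀ j, (p j).Prime) (hinj : Function.Injective p)
    (h : ∀ j, ∃ n : ℕ, (p j : ℝ) ^ t = n) : ∃ k : ℕ, (k : ℝ) = t := by
  obtain ⟨r, hr⟩ := rat_of_primes (t := t) hp hinj fun j => by
    obtain ⟨n, hn⟩ := h j
    rw [hn]
    exact_mod_cast isAlgebraic_natCast (R := ℚ) (A := ℝ) n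
  obtain ⟨n, hn⟩ := h 0
  have hp0 : (1 : ℝ) < p 0 := by exact_mod_cast (hp 0).one_lt
  have hpos : (0 : ℝ) < p 0 := by linarith
  have ht0 : 0 ≤ t := by
    by_contra hneg
    push Not at hneg
    have h1 : (p 0 : ℝ) ^ t < 1 := Real.rpow_lt_one_of_one_lt_of_neg hp0 hneg
    have h2 : (0 : ℝ) < (p 0 : ℝ) ^ t := Real.rpow_pos_of_pos hpos t
    rw [hn] at h1 h2
    have h3 : n < 1 := by exact_mod_cast h1
    have h4 : 0 < n := by exact_mod_cast h2
    omega
  have hr0 : 0 ≤ r := by
    have : (0 : ℝ) ≤ r := by rw [hr]; exact ht0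
    exact_mod_cast this
  obtain ⟨a, ha⟩ := Int.eq_ofNat_of_zero_le (Rat.num_nonneg.2 hr0)
  have hrt : t * r.den = a := by
    have h1 : ((r * r.den : ℚ) : ℝ) = ((r.num : ℚ) : ℝ) := by rw [Rat.mul_den_eq_num]
    rw [ha] at h1
    push_cast at h1
    rw [← hr]
    exact_mod_cast h1
  have h1 : n ^ r.den = p 0 ^ a := by
    have h2 : ((n : ℝ)) ^ r.den = (p 0 : ℝ) ^ a := by
      rw [← hn, ← Real.rpow_natCast, ← Real.rpow_mul hpos.le, hrt, Real.rpow_natCast]
    exact_mod_cast h2
  obtain ⟨c, _, hc⟩ := (Nat.dvd_prime_pow (hp 0)).1 (h1 ▸ dvd_pow_self n r.den_ne_zero)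
  rw [hc, ← pow_mul] at h1
  have h2 : c * r.den = a := Nat.pow_right_injective (hp 0).two_le h1
  refine ⟨c, ?_⟩
  have h3 : (c : ℝ) * r.den = t * r.den := by rw [hrt, ← h2]; push_cast; ring
  exact mul_right_cancel₀ (by exact_mod_cast r.den_ne_zero) h3

/-- If `t` is transcendental and `exp l` is algebraic, `l ≠ 0`, then one of the numbers
`exp (t l), exp (t² l), exp (t³ l)` is transcendental. -/
theorem transcendental_exp_or {t l : ℂ} (ht : Transcendental ℚ t) (hl : l ≠ 0)
    (h : IsAlgebraic ℚ (Complex.exp l)) : Transcendental ℚ (Complex.exp (t * l)) ∨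
    Transcendental ℚ (Complex.exp (t ^ 2 * l)) ∨ Transcendental ℚ (Complex.exp (t ^ 3 * l)) := by
  have hx : LinearIndependent ℚ ![1, t] := linearIndependent_one_of_irrational fun r hr =>
    ht (by rw [← hr]; exact isAlgebraic_algebraMap (R := ℚ) (A := ℂ) r)
  have hy : LinearIndependent ℚ ![l, t * l, t ^ 2 * l] := by
    rw [Fintype.linearIndependent_iff]
    intro g hg
    rw [Fin.sum_univ_three] at hg
    simp only [Matrix.cons_val_zero, Matrix.cons_val_one, Matrix.cons_val, Algebra.smul_def,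
      eq_ratCast] at hg
    have h1 : (aeval t) (C (g 0) + C (g 1) * X + C (g 2) * X ^ 2) = 0 := by
      simp only [map_add, map_mul, map_pow, aeval_C, aeval_X, eq_ratCast]
      have h2 : ((g 0 : ℂ) + g 1 * t + g 2 * t ^ 2) * l = 0 := by linear_combination hg
      exact (mul_eq_zero.1 h2).resolve_right hl
    have h2 := (transcendental_iff.1 ht) _ h1
    have h3 : ∀ i, (C (g 0) + C (g 1) * X + C (g 2) * X ^ 2 : ℚ[X]).coeff i = 0 := by
      intro i; rw [h2, coeff_zero]
    intro i
    fin_cases i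
    · have := h3 0
      simpa [coeff_X, coeff_C] using this
    · have := h3 1
      simpa [coeff_X, coeff_C] using this
    · have := h3 2
      simpa [coeff_X, coeff_C] using this
  obtain ⟨i, j, hij⟩ := six_exponentials hx hy
  by_contra hcon
  rw [not_or, not_or] at hcon
  obtain ⟨h1, h2, h3⟩ := hcon
  rw [Transcendental, not_not] at h1 h2 h3
  apply hij
  fin_cases i <;> fin_cases j
  · simpa using h
  · simpa using h1
  · simpa using h2
  · simpa using h1
  · have e : t * (t * l) = t ^ 2 * l := by ring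
    simpa [e] using h2
  · have e : t * (t ^ 2 * l) = t ^ 3 * l := by ring
    simpa [e] using h3

/-- If `t` is transcendental and `a > 0`, `a ≠ 1` is algebraic, then one of the numbers `a ^ t`,
`a ^ (t ^ 2)`, `a ^ (t ^ 3)` is transcendental. -/
theorem transcendental_pow_or {a t : ℝ} (ha : IsAlgebraic ℚ a) (h0 : 0 < a) (h1 : a ≠ 1)
    (ht : Transcendental ℚ t) : Transcendental ℚ (a ^ t) ∨ Transcendental ℚ (a ^ (t ^ 2)) ∨
    Transcendental ℚ (a ^ (t ^ 3)) := by
  have hl : ((Real.log a : ℝ) : ℂ) ≠ 0 := by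
    exact_mod_cast Real.log_ne_zero_of_pos_of_ne_one h0 h1
  have h := transcendental_exp_or (LW.transcendental_ofReal_iff.2 ht) hl (by
    rw [← Complex.ofReal_exp, Real.exp_log h0]
    exact LW.isAlgebraic_ofReal_iff.2 ha)
  have key : ∀ s : ℝ, Complex.exp ((s : ℂ) * (Real.log a : ℝ)) = ((a ^ s : ℝ) : ℂ) := by
    intro s
    rw [← Complex.ofReal_mul, ← Complex.ofReal_exp, mul_comm, ← Real.rpow_def_of_pos h0]
  rw [← Complex.ofReal_pow, ← Complex.ofReal_pow, key, key, key, LW.transcendental_ofReal_iff,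
    LW.transcendental_ofReal_iff, LW.transcendental_ofReal_iff] at h
  exact h

/-- One of the numbers `2 ^ π`, `2 ^ π²`, `2 ^ π³` is transcendental. -/
theorem transcendental_two_pow_pi_or : Transcendental ℚ ((2 : ℝ) ^ Real.pi) ∨
    Transcendental ℚ ((2 : ℝ) ^ (Real.pi ^ 2)) ∨ Transcendental ℚ ((2 : ℝ) ^ (Real.pi ^ 3)) := by
  refine transcendental_pow_or ?_ two_pos (by norm_num) LW.transcendental_pi
  exact_mod_cast isAlgebraic_natCast (R := ℚ) (A := ℝ) 2

/-- One of the numbers `2 ^ e`, `2 ^ e²`, `2 ^ e³` is transcendental. -/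
theorem transcendental_two_pow_e_or : Transcendental ℚ ((2 : ℝ) ^ Real.exp 1) ∨
    Transcendental ℚ ((2 : ℝ) ^ (Real.exp 1 ^ 2)) ∨
    Transcendental ℚ ((2 : ℝ) ^ (Real.exp 1 ^ 3)) := by
  refine transcendental_pow_or ?_ two_pos (by norm_num) LW.transcendental_e
  exact_mod_cast isAlgebraic_natCast (R := ℚ) (A := ℝ) 2

end Fermat.Agent.Cor.SIX
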